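import Mathlib
import Fermat.Agent.S05.ValBasic

/-!
# S13, local analysis at `2` (direct method): coordinates on the minimal model

For a `KummerData` `D` (the curve `y² = x³ + βx² + γx`) we pass to the coordinates
`X = x / 4`, `Y = (y - x) / 8` of the model `Y² + XY = X³ + a₂X² + a₄X`, `a₂ = (β - 1) / 4`,
`a₄ = γ / 16`, and study a valuation `v` of residue characteristic two for which `a₂` is integral
and `0 < v a₄ < 1`.  The only group-law inputs are the chord formula, the duplication formula and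
the two "x-only" formulas of `S05.ValBasic`.
-/

set_option autoImplicit false

namespace Fermat.Agent.S13.TwoDirect

open Fermat.Agent.S05

section defs
variable {G K : Type*} [AddCommGroup G] [Field K] (D : KummerData G K)

/-- abscissa on the minimal model -/
noncomputable def mX (P : G) : K := D.x P / 4

/-- ordinate on the minimal model -/
noncomputable def mY (P : G) : K := (D.y P - D.x P) / 8

/-- the coefficient `a₂` of the minimal model -/
noncomputable def ca2 : K := (D.β - 1) / 4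

/-- the coefficient `a₄` of the minimal model -/
noncomputable def ca4 : K := D.γ / 16

lemma four_ne (h2 : (2 : K) ≠ 0) : (4 : K) ≠ 0 := by
  have : (4 : K) = 2 * 2 := by norm_num
  rw [this]; exact mul_ne_zero h2 h2

lemma eight_ne (h2 : (2 : K) ≠ 0) : (8 : K) ≠ 0 := by
  have : (8 : K) = 2 * 4 := by norm_num
  rw [this]; exact mul_ne_zero h2 (four_ne h2)

lemma sixteen_ne (h2 : (2 : K) ≠ 0) : (16 : K) ≠ 0 := by
  have : (16 : K) = 4 * 4 := by norm_num
  rw [this]; exact mul_ne_zero (four_ne h2) (four_ne h2)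

lemma sixtyfour_ne (h2 : (2 : K) ≠ 0) : (64 : K) ≠ 0 := by
  have : (64 : K) = 8 * 8 := by norm_num
  rw [this]; exact mul_ne_zero (eight_ne h2) (eight_ne h2)

lemma x_eq (h2 : (2 : K) ≠ 0) (P : G) : D.x P = 4 * mX D P := by
  have := four_ne h2
  unfold mX; field_simp

lemma y_eq (h2 : (2 : K) ≠ 0) (P : G) : D.y P = 8 * mY D P + 4 * mX D P := by
  have := four_ne h2
  have := eight_ne h2
  unfold mX mY; field_simp; ring

lemma β_eq (h2 : (2 : K) ≠ 0) : D.β = 4 * ca2 D + 1 := by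
  have := four_ne h2
  unfold ca2; field_simp; ring

lemma γ_eq (h2 : (2 : K) ≠ 0) : D.γ = 16 * ca4 D := by
  have := sixteen_ne h2
  unfold ca4; field_simp

lemma mX_neg (P : G) : mX D (-P) = mX D P := by
  unfold mX; rw [D.x_neg]

lemma mY_neg (h2 : (2 : K) ≠ 0) (P : G) : mY D (-P) = -mY D P - mX D P := by
  have := four_ne h2
  have := eight_ne h2
  unfold mX mY; rw [D.x_neg, D.y_neg]; field_simp; ring

lemma mX_ne_iff (h2 : (2 : K) ≠ 0) (P Q : G) : D.x P ≠ D.x Q ↔ mX D P ≠ mX D Q := by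
  rw [x_eq D h2 P, x_eq D h2 Q]
  exact not_congr (mul_right_inj' (four_ne h2))

lemma m_eqn (h2 : (2 : K) ≠ 0) {P : G} (hP : P ≠ 0) :
    mY D P ^ 2 + mX D P * mY D P = mX D P ^ 3 + ca2 D * mX D P ^ 2 + ca4 D * mX D P := by
  have e := D.eqn P hP
  rw [x_eq D h2 P, y_eq D h2 P, β_eq D h2, γ_eq D h2] at e
  apply mul_left_cancel₀ (sixtyfour_ne h2)
  linear_combination e

/-- `2Y + X` vanishes exactly when the Kummer ordinate does. -/
lemma y_ne_iff (h2 : (2 : K) ≠ 0) (P : G) : D.y P ≠ 0 ↔ 2 * mY D P + mX D P ≠ 0 := by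
  rw [y_eq D h2 P]
  have : 8 * mY D P + 4 * mX D P = 4 * (2 * mY D P + mX D P) := by ring
  rw [this]
  exact not_congr (mul_eq_zero.trans (or_iff_right (four_ne h2)))

lemma m_dbl (h2 : (2 : K) ≠ 0) {P : G} (hP : P ≠ 0) (hy : D.y P ≠ 0) :
    mX D (P + P) * mX D P * (4 * mX D P ^ 2 + (4 * ca2 D + 1) * mX D P + 4 * ca4 D) =
      (mX D P ^ 2 - ca4 D) ^ 2 := by
  have e := D.dbl_x P hP hy
  have e2 := D.eqn P hP
  rw [e2] at e
  rw [x_eq D h2 P, x_eq D h2 (P + P), β_eq D h2, γ_eq D h2] at e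
  apply mul_left_cancel₀ (sixtyfour_ne h2)
  apply mul_left_cancel₀ (four_ne h2)
  linear_combination e

lemma m_sub (h2 : (2 : K) ≠ 0) {P Q : G} (hP : P ≠ 0) (hQ : Q ≠ 0) (hne : mX D P ≠ mX D Q) :
    mX D (P - Q) * (mX D P - mX D Q) ^ 2 =
      (mY D P + mY D Q + mX D Q) * (mY D P + mY D Q + mX D P)
        - (ca2 D + mX D P + mX D Q) * (mX D P - mX D Q) ^ 2 := by
  have e := D.sub_x P Q hP hQ ((mX_ne_iff D h2 P Q).mpr hne)
  rw [x_eq D h2 P, x_eq D h2 Q, x_eq D h2 (P - Q), y_eq D h2 P, y_eq D h2 Q, β_eq D h2] at e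
  apply mul_left_cancel₀ (sixtyfour_ne h2)
  linear_combination e

lemma m_prod (h2 : (2 : K) ≠ 0) {P Q : G} (hP : P ≠ 0) (hQ : Q ≠ 0) (hne : mX D P ≠ mX D Q) :
    mX D (P + Q) * mX D (P - Q) * (mX D P - mX D Q) ^ 2 = (mX D P * mX D Q - ca4 D) ^ 2 := by
  have e := D.prod_x hP hQ ((mX_ne_iff D h2 P Q).mpr hne)
  rw [x_eq D h2 P, x_eq D h2 Q, x_eq D h2 (P - Q), x_eq D h2 (P + Q), γ_eq D h2] at e
  apply mul_left_cancel₀ (sixteen_ne h2)
  apply mul_left_cancel₀ (sixteen_ne h2)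
  linear_combination e

lemma m_sum (h2 : (2 : K) ≠ 0) {P Q : G} (hP : P ≠ 0) (hQ : Q ≠ 0) (hne : mX D P ≠ mX D Q) :
    (mX D (P + Q) + mX D (P - Q)) * (mX D P - mX D Q) ^ 2 =
      2 * (mX D P + mX D Q) * (mX D P * mX D Q + ca4 D)
        + (4 * ca2 D + 1) * (mX D P * mX D Q) := by
  have e := D.sum_x hP hQ ((mX_ne_iff D h2 P Q).mpr hne)
  rw [x_eq D h2 P, x_eq D h2 Q, x_eq D h2 (P - Q), x_eq D h2 (P + Q), β_eq D h2, γ_eq D h2] at e
  apply mul_left_cancel₀ (sixtyfour_ne h2)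
  linear_combination e

/-- two nonzero points with the same abscissa are equal or opposite -/
lemma eq_or_eq_neg_of_mX_eq (h2 : (2 : K) ≠ 0) {P Q : G} (hP : P ≠ 0) (hQ : Q ≠ 0)
    (h : mX D P = mX D Q) : P = Q ∨ P = -Q := by
  apply D.eq_or_eq_neg_of_x_eq hP hQ
  rw [x_eq D h2 P, x_eq D h2 Q, h]

/-- a nonzero point with vanishing Kummer ordinate is `2`-torsion -/
lemma add_self_eq_zero_of_y_eq_zero {P : G} (hP : P ≠ 0) (hy : D.y P = 0) : P + P = 0 := by
  have h1 : P = -P := by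
    refine D.inj P (-P) hP (neg_ne_zero.mpr hP) (D.x_neg P).symm ?_
    rw [D.y_neg, hy, neg_zero]
  calc P + P = P + -P := by rw [← h1]
    _ = 0 := add_neg_cancel P

end defs

end Fermat.Agent.S13.TwoDirect
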