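import Mathlib
import Fermat.Agent.S05.ValF1
import Fermat.Agent.S13.TwoDirect.Basic

/-!
# S13, local analysis at `2` (direct method): duplication and the shape of odd torsion

Standing hypotheses `Hyp`: residue characteristic two, `a₂` integral, `0 < v a₄ < 1`.
A point of odd prime order is periodic under duplication; together with three crude valuation
estimates for the duplication formula this shows that such a point has an integral abscissa `X`
(`tors_int`) and, if `v X < 1`, that `v a₄ < v X` (`tors_not_deep`).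
-/

set_option autoImplicit false

namespace Fermat.Agent.S13.TwoDirect

open Fermat.Agent.S05

section val
variable {G K Γ₀ : Type*} [AddCommGroup G] [Field K] [LinearOrderedCommGroupWithZero Γ₀]
  (D : KummerData G K) (v : Valuation K Γ₀)

/-- standing hypotheses: residue characteristic two, `a₂` integral, `0 < |a₄| < 1`. -/
structure Hyp : Prop where
  two : v 2 < 1
  two_ne : (2 : K) ≠ 0
  a2 : v (ca2 D) ≤ 1
  a4 : v (ca4 D) < 1
  a4_ne : ca4 D ≠ 0

variable {D v}

lemma Hyp.four (H : Hyp D v) : v 4 < 1 := by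
  have : (4 : K) = 2 * 2 := by norm_num
  rw [this, map_mul]
  calc v 2 * v 2 ≤ 1 * v 2 := by gcongr; exact H.two.le
    _ = v 2 := one_mul _
    _ < 1 := H.two

lemma Hyp.four_a2 (H : Hyp D v) : v (4 * ca2 D) < 1 := by
  rw [map_mul]
  calc v 4 * v (ca2 D) ≤ v 4 * 1 := by gcongr; exact H.a2
    _ = v 4 := mul_one _
    _ < 1 := H.four

lemma Hyp.b2 (H : Hyp D v) : v (4 * ca2 D + 1) = 1 := by
  rw [add_comm]; exact v.map_one_add_of_lt H.four_a2

lemma Hyp.a4_pos (H : Hyp D v) : 0 < v (ca4 D) :=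
  zero_lt_iff.mpr ((map_ne_zero v).mpr H.a4_ne)

/-- `Y` is integral when `X` is. -/
lemma mY_int (H : Hyp D v) {P : G} (hP : P ≠ 0) (hX : v (mX D P) ≤ 1) : v (mY D P) ≤ 1 := by
  by_contra h
  rw [not_le] at h
  have e := m_eqn D H.two_ne hP
  have h1 : v (mY D P + mX D P) = v (mY D P) :=
    v.map_add_eq_of_lt_left (lt_of_le_of_lt hX h)
  have h2 : v (mY D P ^ 2 + mX D P * mY D P) = v (mY D P) * v (mY D P) := by
    have : mY D P ^ 2 + mX D P * mY D P = mY D P * (mY D P + mX D P) := by ring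
    rw [this, map_mul, h1]
  have h3 : v (mX D P ^ 3 + ca2 D * mX D P ^ 2 + ca4 D * mX D P) ≤ 1 := by
    refine v.map_add_le (v.map_add_le ?_ ?_) ?_
    · rw [map_pow]; exact pow_le_one₀ zero_le hX
    · rw [map_mul, map_pow]
      calc v (ca2 D) * v (mX D P) ^ 2 ≤ 1 * 1 := by
            gcongr
            · exact H.a2
            · exact pow_le_one₀ zero_le hX
        _ = 1 := one_mul _
    · rw [map_mul]
      calc v (ca4 D) * v (mX D P) ≤ 1 * 1 := by
            gcongr
            exact H.a4.le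
        _ = 1 := one_mul _
  rw [← e, h2] at h3
  have h4 : 1 < v (mY D P) * v (mY D P) := one_lt_mul_of_lt_of_le' h h.le
  exact absurd h3 (not_le.mpr h4)

/-- duplication, kernel of reduction: the abscissa grows strictly. -/
lemma dbl_big (H : Hyp D v) {P : G} (hP : P ≠ 0) (hy : D.y P ≠ 0) (hX : 1 < v (mX D P)) :
    v (mX D P) < v (mX D (P + P)) := by
  have e := congrArg v (m_dbl D H.two_ne hP hy)
  rw [map_mul, map_mul, map_pow] at e
  set c := v (mX D P) with hc
  have hc0 : 0 < c := lt_trans zero_lt_one hX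
  have hcc : c < c ^ 2 := by
    rw [pow_two]
    calc c = c * 1 := (mul_one _).symm
      _ < c * c := by gcongr
  have h1 : v (mX D P ^ 2 - ca4 D) = c ^ 2 := by
    rw [← map_pow]
    apply v.map_sub_eq_of_lt_left
    rw [map_pow, ← hc]
    exact lt_trans H.a4 (lt_trans hX hcc)
  have h2 : v (4 * mX D P ^ 2 + (4 * ca2 D + 1) * mX D P + 4 * ca4 D) < c ^ 2 := by
    refine v.map_add_lt (v.map_add_lt ?_ ?_) ?_
    · rw [map_mul, map_pow, ← hc]
      calc v 4 * c ^ 2 < 1 * c ^ 2 := by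
            gcongr
            · exact pow_pos hc0 2
            · exact H.four
        _ = c ^ 2 := one_mul _
    · rw [map_mul, H.b2, one_mul]; exact hcc
    · rw [map_mul]
      calc v 4 * v (ca4 D) ≤ 1 * 1 := by
            gcongr
            · exact H.four.le
            · exact H.a4.le
        _ = 1 := one_mul _
        _ < c ^ 2 := lt_trans hX hcc
  rw [h1] at e
  by_contra hle
  rw [not_lt] at hle
  have : v (mX D (P + P)) * c *
      v (4 * mX D P ^ 2 + (4 * ca2 D + 1) * mX D P + 4 * ca4 D) < (c ^ 2) ^ 2 := by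
    calc v (mX D (P + P)) * c *
        v (4 * mX D P ^ 2 + (4 * ca2 D + 1) * mX D P + 4 * ca4 D)
        ≤ c * c * v (4 * mX D P ^ 2 + (4 * ca2 D + 1) * mX D P + 4 * ca4 D) :=
          mul_le_mul' (mul_le_mul' hle le_rfl) le_rfl
      _ < c * c * c ^ 2 := mul_lt_mul_of_pos_left h2 (mul_pos hc0 hc0)
      _ = (c ^ 2) ^ 2 := by simp only [pow_two]
  exact absurd e (ne_of_lt this)

/-- duplication, nonsingular reduction: the abscissa stays a unit. -/
lemma dbl_unit (H : Hyp D v) {P : G} (hP : P ≠ 0) (hy : D.y P ≠ 0) (hX : v (mX D P) = 1) :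
    v (mX D (P + P)) = 1 := by
  have e := congrArg v (m_dbl D H.two_ne hP hy)
  rw [map_mul, map_mul, map_pow, hX, mul_one] at e
  have h1 : v (mX D P ^ 2 - ca4 D) = 1 := by
    have : v (mX D P ^ 2) = 1 := by rw [map_pow, hX, one_pow]
    rw [← this]
    apply v.map_sub_eq_of_lt_left
    rw [this]; exact H.a4
  have h2 : v (4 * mX D P ^ 2 + (4 * ca2 D + 1) * mX D P + 4 * ca4 D) = 1 := by
    have hb : v ((4 * ca2 D + 1) * mX D P) = 1 := by rw [map_mul, H.b2, hX, one_mul]
    have h4 : v (4 * mX D P ^ 2) < 1 := by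
      rw [map_mul, map_pow, hX, one_pow, mul_one]; exact H.four
    have h5 : v (4 * ca4 D) < 1 := by
      rw [map_mul]
      calc v 4 * v (ca4 D) ≤ 1 * v (ca4 D) := by gcongr; exact H.four.le
        _ = v (ca4 D) := one_mul _
        _ < 1 := H.a4
    have h6 : v (4 * mX D P ^ 2 + (4 * ca2 D + 1) * mX D P) = 1 := by
      rw [← hb]; apply v.map_add_eq_of_lt_right; rw [hb]; exact h4
    rw [← h6]; apply v.map_add_eq_of_lt_left; rw [h6]; exact h5
  rw [h1, h2, mul_one, one_pow] at e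
  exact e

/-- duplication, deep points: the double has nonsingular reduction or lies in the kernel. -/
lemma dbl_deep (H : Hyp D v) {P : G} (hP : P ≠ 0) (hy : D.y P ≠ 0) (hX0 : mX D P ≠ 0)
    (hX : v (mX D P) ≤ v (ca4 D)) : 1 ≤ v (mX D (P + P)) := by
  have e := congrArg v (m_dbl D H.two_ne hP hy)
  rw [map_mul, map_mul, map_pow] at e
  set c := v (mX D P) with hc
  set g := v (ca4 D) with hg
  have hc0 : 0 < c := zero_lt_iff.mpr ((map_ne_zero v).mpr hX0)
  have hg0 : 0 < g := H.a4_pos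
  have hc1 : c < 1 := lt_of_le_of_lt hX H.a4
  have hcc : c ^ 2 < c := by
    rw [pow_two]
    calc c * c < c * 1 := by gcongr
      _ = c := mul_one _
  have h1 : v (mX D P ^ 2 - ca4 D) = g := by
    apply v.map_sub_eq_of_lt_right
    rw [map_pow, ← hc, ← hg]
    exact lt_of_lt_of_le hcc hX
  have h2 : v (4 * mX D P ^ 2 + (4 * ca2 D + 1) * mX D P + 4 * ca4 D) ≤ g := by
    refine v.map_add_le (v.map_add_le ?_ ?_) ?_
    · rw [map_mul, map_pow, ← hc]
      calc v 4 * c ^ 2 ≤ 1 * c := mul_le_mul' H.four.le hcc.le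
        _ = c := one_mul _
        _ ≤ g := hX
    · rw [map_mul, H.b2, one_mul]; exact hX
    · rw [map_mul, ← hg]
      calc v 4 * g ≤ 1 * g := by gcongr; exact H.four.le
        _ = g := one_mul _
  rw [h1] at e
  by_contra hlt
  rw [not_le] at hlt
  have : v (mX D (P + P)) * c *
      v (4 * mX D P ^ 2 + (4 * ca2 D + 1) * mX D P + 4 * ca4 D) < g ^ 2 := by
    calc v (mX D (P + P)) * c *
        v (4 * mX D P ^ 2 + (4 * ca2 D + 1) * mX D P + 4 * ca4 D)
        = v (mX D (P + P)) * (c *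
          v (4 * mX D P ^ 2 + (4 * ca2 D + 1) * mX D P + 4 * ca4 D)) := mul_assoc _ _ _
      _ ≤ v (mX D (P + P)) * (g * g) := mul_le_mul' le_rfl (mul_le_mul' hX h2)
      _ < 1 * (g * g) := mul_lt_mul_of_pos_right hlt (mul_pos hg0 hg0)
      _ = g ^ 2 := by rw [one_mul, pow_two]
  exact absurd e (ne_of_lt this)

end val

section torsion
variable {G : Type*} [AddCommGroup G]

/-- `2 ^ (p - 1)` acts as the identity on `p`-torsion (`p` an odd prime). -/
lemma two_pow_smul {p : ℕ} (hp : p.Prime) (hp2 : p ≠ 2) {P : G} (hP : p • P = 0) :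
    2 ^ (p - 1) • P = P := by
  have hcop : Nat.Coprime 2 p := (Nat.coprime_primes Nat.prime_two hp).mpr (Ne.symm hp2)
  have h1 : 2 ^ (p - 1) ≡ 1 [MOD p] := by
    have := Nat.ModEq.pow_totient hcop
    rwa [Nat.totient_prime hp] at this
  have h2 : p ∣ 2 ^ (p - 1) - 1 := (Nat.modEq_iff_dvd' Nat.one_le_two_pow).mp h1.symm
  obtain ⟨k, hk⟩ := h2
  have h3 : 2 ^ (p - 1) = k * p + 1 := by
    have := Nat.one_le_two_pow (n := p - 1)
    have : k * p = p * k := mul_comm _ _
    omega
  rw [h3, add_nsmul, mul_nsmul', hP, smul_zero, zero_add, one_nsmul]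

/-- a property inherited by doubles and valid for `2P` holds for a point `P` of odd prime
order. -/
lemma orbit_ind {p : ℕ} (hp : p.Prime) (hp2 : p ≠ 2) {P : G} (hP : p • P = 0)
    (S : G → Prop) (hS : ∀ Q, p • Q = 0 → S Q → S (Q + Q)) (h : S (P + P)) : S P := by
  have key : ∀ j : ℕ, p • (2 ^ (j + 1) • P) = 0 ∧ S (2 ^ (j + 1) • P) := by
    intro j
    induction j with
    | zero =>
      have e : 2 ^ (0 + 1) • P = P + P := by rw [zero_add, pow_one, two_nsmul]
      rw [e]
      exact ⟨by rw [smul_add, hP, add_zero], h⟩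
    | succ j ih =>
      have e : 2 ^ (j + 1 + 1) • P = 2 ^ (j + 1) • P + 2 ^ (j + 1) • P := by
        rw [pow_succ, mul_nsmul, two_nsmul]
      rw [e]
      exact ⟨by rw [smul_add, ih.1, add_zero], hS _ ih.1 ih.2⟩
  have h1 : 2 ^ (p - 1) • P = P := two_pow_smul hp hp2 hP
  have h2 := (key (p - 2)).2
  have h3 : p - 2 + 1 = p - 1 := by have := hp.two_le; omega
  rwa [h3, h1] at h2

/-- the double of a nonzero point of odd prime order is nonzero -/
lemma add_self_ne_zero {p : ℕ} (hp : p.Prime) (hp2 : p ≠ 2) {P : G} (hP : p • P = 0)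
    (hP0 : P ≠ 0) : P + P ≠ 0 := by
  intro h
  have h2 : 2 • P = 0 := by rw [two_nsmul]; exact h
  obtain ⟨k, hk⟩ := hp.odd_of_ne_two hp2
  rw [hk, add_nsmul, mul_nsmul, h2, smul_zero, zero_add, one_nsmul] at hP
  exact hP0 hP

variable {K Γ₀ : Type*} [Field K] [LinearOrderedCommGroupWithZero Γ₀]
  {D : KummerData G K} {v : Valuation K Γ₀}

/-- the Kummer ordinate of a nonzero point of odd prime order does not vanish -/
lemma y_ne_of_tors {p : ℕ} (hp : p.Prime) (hp2 : p ≠ 2) {P : G} (hP : p • P = 0)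
    (hP0 : P ≠ 0) : D.y P ≠ 0 := fun h =>
  add_self_ne_zero hp hp2 hP hP0 (add_self_eq_zero_of_y_eq_zero D hP0 h)

/-- the abscissa of a nonzero point of odd prime order does not vanish -/
lemma mX_ne_of_tors (H : Hyp D v) {p : ℕ} (hp : p.Prime) (hp2 : p ≠ 2) {P : G}
    (hP : p • P = 0) (hP0 : P ≠ 0) : mX D P ≠ 0 := by
  intro h
  have hy := y_ne_of_tors (D := D) hp hp2 hP hP0
  have e := m_dbl D H.two_ne hP0 hy
  have e2 := m_eqn D H.two_ne hP0
  rw [h] at e e2
  have h1 : mY D P = 0 := by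
    have : mY D P ^ 2 = 0 := by linear_combination e2
    exact pow_eq_zero_iff (two_ne_zero) |>.mp this
  have h2 : 2 * mY D P + mX D P = 0 := by rw [h1, h]; ring
  exact (y_ne_iff D H.two_ne P).mp hy h2

/-- **(L1)** a nonzero point of odd prime order has an integral abscissa. -/
theorem tors_int (H : Hyp D v) {p : ℕ} (hp : p.Prime) (hp2 : p ≠ 2) {P : G}
    (hP : p • P = 0) (hP0 : P ≠ 0) : v (mX D P) ≤ 1 := by
  by_contra hlt
  rw [not_le] at hlt
  have key := orbit_ind hp hp2 hP (fun Q => Q ≠ 0 ∧ v (mX D P) < v (mX D Q))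
    (fun Q hQ hS => ⟨add_self_ne_zero hp hp2 hQ hS.1,
      lt_trans hS.2 (dbl_big H hS.1 (y_ne_of_tors hp hp2 hQ hS.1) (lt_trans hlt hS.2))⟩)
    ⟨add_self_ne_zero hp hp2 hP hP0, dbl_big H hP0 (y_ne_of_tors hp hp2 hP hP0) hlt⟩
  exact lt_irrefl _ key.2

/-- **(L4)** a nonzero point of odd prime order with `v X < 1` has `v a₄ < v X`. -/
theorem tors_not_deep (H : Hyp D v) {p : ℕ} (hp : p.Prime) (hp2 : p ≠ 2) {P : G}
    (hP : p • P = 0) (hP0 : P ≠ 0) (hX : v (mX D P) < 1) : v (ca4 D) < v (mX D P) := by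
  by_contra hle
  rw [not_lt] at hle
  have hPP : p • (P + P) = 0 := by rw [smul_add, hP, add_zero]
  have hPP0 := add_self_ne_zero hp hp2 hP hP0
  have h1 : v (mX D (P + P)) = 1 :=
    le_antisymm (tors_int H hp hp2 hPP hPP0)
      (dbl_deep H hP0 (y_ne_of_tors hp hp2 hP hP0) (mX_ne_of_tors H hp hp2 hP hP0) hle)
  have key := orbit_ind hp hp2 hP (fun Q => Q ≠ 0 ∧ v (mX D Q) = 1)
    (fun Q hQ hS => ⟨add_self_ne_zero hp hp2 hQ hS.1,
      dbl_unit H hS.1 (y_ne_of_tors hp hp2 hQ hS.1) hS.2⟩)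
    ⟨hPP0, h1⟩
  exact absurd key.2 (ne_of_lt hX)

end torsion

end Fermat.Agent.S13.TwoDirect
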