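import Mathlib
import Fermat.Agent.S13.TwoDirect.Dbl

/-!
# S13, local analysis at `2` (direct method): inertia acts unipotently on odd torsion

`Inert D v τ σ` axiomatises an element of the inertia group (`σ` on the field, `τ` on points).
* `fixed_of_unit` : a torsion point with unit abscissa (nonsingular reduction) is fixed;
* `node_core` : for a torsion point near the node, `τ T - T` is `0` or has unit abscissa;
* `unipotent` : `τ (τ T - T) = τ T - T` for every point `T` of odd prime order.
-/

set_option autoImplicit false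

namespace Fermat.Agent.S13.TwoDirect

open Fermat.Agent.S05

section
variable {G K Γ₀ : Type*} [AddCommGroup G] [Field K] [LinearOrderedCommGroupWithZero Γ₀]
  (D : KummerData G K) (v : Valuation K Γ₀) (τ : G →+ G) (σ : K →+* K)

/-- `(τ, σ)` behaves like an element of the inertia group of `v`. -/
structure Inert : Prop where
  x : ∀ P, P ≠ 0 → D.x (τ P) = σ (D.x P)
  y : ∀ P, P ≠ 0 → D.y (τ P) = σ (D.y P)
  ne : ∀ P, P ≠ 0 → τ P ≠ 0
  lt : ∀ a, v a ≤ 1 → v (σ a - a) < 1
  val : ∀ a, v (σ a) = v a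

variable {D v τ σ}

lemma Inert.map_mX (I : Inert D v τ σ) {P : G} (hP : P ≠ 0) : mX D (τ P) = σ (mX D P) := by
  unfold mX
  rw [I.x P hP, map_div₀, map_ofNat]

lemma Inert.map_mY (I : Inert D v τ σ) {P : G} (hP : P ≠ 0) : mY D (τ P) = σ (mY D P) := by
  unfold mY
  rw [I.x P hP, I.y P hP, map_div₀, map_sub, map_ofNat]

lemma Hyp.two_mul_lt (H : Hyp D v) {a : K} (ha : v a ≤ 1) : v (2 * a) < 1 := by
  rw [map_mul]
  calc v 2 * v a ≤ v 2 * 1 := mul_le_mul' le_rfl ha
    _ = v 2 := mul_one _
    _ < 1 := H.two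

/-- **(L2)** a torsion point with unit abscissa is fixed by inertia. -/
theorem fixed_of_unit (H : Hyp D v) (I : Inert D v τ σ) {p : ℕ} (hp : p.Prime) (hp2 : p ≠ 2)
    {T : G} (hT : p • T = 0) (hT0 : T ≠ 0) (h1 : v (mX D T) = 1) : τ T = T := by
  have hT' : p • τ T = 0 := by rw [← map_nsmul, hT, map_zero]
  have hT'0 := I.ne T hT0
  have hX' := I.map_mX hT0
  have hY' := I.map_mY hT0
  have hYint : v (mY D T) ≤ 1 := mY_int H hT0 h1.le
  have hdX : v (mX D (τ T) - mX D T) < 1 := by rw [hX']; exact I.lt _ h1.le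
  have hdY : v (mY D (τ T) - mY D T) < 1 := by rw [hY']; exact I.lt _ hYint
  have h1' : v (mX D (τ T)) = 1 := by rw [hX', I.val, h1]
  have h2Y : v (2 * mY D T) < 1 := H.two_mul_lt hYint
  have h2YX : v (2 * mY D T + mX D T) = 1 := by
    rw [← h1]; exact v.map_add_eq_of_lt_right (by rw [h1]; exact h2Y)
  by_cases hne : mX D (τ T) = mX D T
  · rcases eq_or_eq_neg_of_mX_eq D H.two_ne hT'0 hT0 hne with h | h
    · exact h
    · exfalso
      have e : mY D (τ T) - mY D T = -(2 * mY D T + mX D T) := by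
        rw [h, mY_neg D H.two_ne]; ring
      rw [e, v.map_neg, h2YX] at hdY
      exact lt_irrefl _ hdY
  · exfalso
    have e := congrArg v (m_sub D H.two_ne hT'0 hT0 hne)
    have hs : v (mY D (τ T) + mY D T + mX D T) = 1 := by
      have : mY D (τ T) + mY D T + mX D T =
          (mY D (τ T) - mY D T) + (2 * mY D T + mX D T) := by ring
      rw [this, ← h2YX]
      exact v.map_add_eq_of_lt_right (by rw [h2YX]; exact hdY)
    have ht : v (mY D (τ T) + mY D T + mX D (τ T)) = 1 := by
      have : mY D (τ T) + mY D T + mX D (τ T) =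
          (mX D (τ T) - mX D T) + (mY D (τ T) + mY D T + mX D T) := by ring
      rw [this, ← hs]
      exact v.map_add_eq_of_lt_right (by rw [hs]; exact hdX)
    have hd2 : v (mX D (τ T) - mX D T) ^ 2 < 1 := pow_lt_one₀ zero_le hdX two_ne_zero
    have hr : v ((ca2 D + mX D (τ T) + mX D T) * (mX D (τ T) - mX D T) ^ 2) < 1 := by
      rw [map_mul, map_pow]
      have : v (ca2 D + mX D (τ T) + mX D T) ≤ 1 :=
        v.map_add_le (v.map_add_le H.a2 h1'.le) h1.le
      calc v (ca2 D + mX D (τ T) + mX D T) * v (mX D (τ T) - mX D T) ^ 2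
          ≤ 1 * v (mX D (τ T) - mX D T) ^ 2 := mul_le_mul' this le_rfl
        _ = v (mX D (τ T) - mX D T) ^ 2 := one_mul _
        _ < 1 := hd2
    have hst : v ((mY D (τ T) + mY D T + mX D T) * (mY D (τ T) + mY D T + mX D (τ T))) = 1 := by
      rw [map_mul, hs, ht, one_mul]
    have hR : v ((mY D (τ T) + mY D T + mX D T) * (mY D (τ T) + mY D T + mX D (τ T))
        - (ca2 D + mX D (τ T) + mX D T) * (mX D (τ T) - mX D T) ^ 2) = 1 := by
      rw [← hst]
      exact v.map_sub_eq_of_lt_left (by rw [hst]; exact hr)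
    rw [hR, map_mul, map_pow] at e
    have hR0 : τ T - T ≠ 0 := sub_ne_zero.mpr (fun h => hne (by rw [h]))
    have hRt : p • (τ T - T) = 0 := by rw [smul_sub, hT', hT, sub_zero]
    have hle := tors_int H hp hp2 hRt hR0
    have : v (mX D (τ T - T)) * v (mX D (τ T) - mX D T) ^ 2 < 1 := by
      calc v (mX D (τ T - T)) * v (mX D (τ T) - mX D T) ^ 2
          ≤ 1 * v (mX D (τ T) - mX D T) ^ 2 := mul_le_mul' hle le_rfl
        _ = v (mX D (τ T) - mX D T) ^ 2 := one_mul _
        _ < 1 := hd2
    exact absurd e (ne_of_lt this)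

/-- the two branch functions at the node -/
lemma branch_mul (h2 : (2 : K) ≠ 0) {P : G} (hP : P ≠ 0) (α : K) (hα : α ^ 2 + α = ca2 D) :
    (mY D P - α * mX D P) * (mY D P + (1 + α) * mX D P) =
      mX D P * (mX D P ^ 2 + ca4 D) := by
  have e := m_eqn D h2 hP
  linear_combination e - (mX D P) ^ 2 * hα

/-- near the node exactly one branch function is small -/
lemma branch_lt (H : Hyp D v) {P : G} (hP : P ≠ 0) (hlt : v (mX D P) < 1)
    (hg : v (ca4 D) < v (mX D P)) (α : K) (hα : α ^ 2 + α = ca2 D) :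
    v (mY D P - α * mX D P) < v (mX D P) ∨ v (mY D P + (1 + α) * mX D P) < v (mX D P) := by
  by_contra hcon
  push Not at hcon
  obtain ⟨h1, h2⟩ := hcon
  have e := congrArg v (branch_mul H.two_ne hP α hα)
  rw [map_mul, map_mul] at e
  have hc0 : 0 < v (mX D P) := lt_trans H.a4_pos hg
  have hcc : v (mX D P) ^ 2 < v (mX D P) := by
    rw [pow_two]
    calc v (mX D P) * v (mX D P) < v (mX D P) * 1 := mul_lt_mul_of_pos_left hlt hc0
      _ = v (mX D P) := mul_one _
  have h3 : v (mX D P ^ 2 + ca4 D) < v (mX D P) :=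
    v.map_add_lt (by rw [map_pow]; exact hcc) hg
  have h4 : v (mX D P) * v (mX D P) ≤ v (mX D P) * v (mX D P ^ 2 + ca4 D) := by
    rw [← e]; exact mul_le_mul' h1 h2
  exact absurd h4 (not_le.mpr (mul_lt_mul_of_pos_left h3 hc0))

lemma alpha_int (H : Hyp D v) (α : K) (hα : α ^ 2 + α = ca2 D) : v α ≤ 1 := by
  by_contra h
  rw [not_le] at h
  have h1 : v (α + 1) = v α := v.map_add_eq_of_lt_left (by rw [map_one]; exact h)
  have h2 : v (α ^ 2 + α) = v α * v α := by
    rw [show α ^ 2 + α = α * (α + 1) by ring, map_mul, h1]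
  rw [hα] at h2
  have h3 := H.a2
  rw [h2] at h3
  exact absurd h3 (not_le.mpr (one_lt_mul_of_lt_of_le' h h.le))

lemma delta_unit (H : Hyp D v) (α : K) (hα : α ^ 2 + α = ca2 D) : v (2 * α + 1) = 1 := by
  rw [add_comm]
  exact v.map_one_add_of_lt (H.two_mul_lt (alpha_int H α hα))

/-- **(L3)** for a torsion point near the node on the branch `Y ≈ αX`, the point `τ T - T` is zero
or has unit abscissa. -/
theorem node_core (H : Hyp D v) (I : Inert D v τ σ) {p : ℕ} (hp : p.Prime) (hp2 : p ≠ 2)
    {T : G} (hT : p • T = 0) (hT0 : T ≠ 0) (hlt : v (mX D T) < 1)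
    (α : K) (hα : α ^ 2 + α = ca2 D)
    (hF : v (mY D T - α * mX D T) < v (mX D T)) :
    τ T = T ∨ v (mX D (τ T - T)) = 1 := by
  have hT' : p • τ T = 0 := by rw [← map_nsmul, hT, map_zero]
  have hT'0 := I.ne T hT0
  have hX' := I.map_mX hT0
  have hY' := I.map_mY hT0
  have hαint := alpha_int H α hα
  have hδ := delta_unit H α hα
  have hc0 : 0 < v (mX D T) := zero_lt_iff.mpr ((map_ne_zero v).mpr (mX_ne_of_tors H hp hp2 hT hT0))
  have hc' : v (mX D (τ T)) = v (mX D T) := by rw [hX', I.val]
  -- the branch is preserved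
  have hF' : v (mY D (τ T) - α * mX D (τ T)) < v (mX D T) := by
    have e : mY D (τ T) - α * mX D (τ T) =
        σ (mY D T - α * mX D T) - (α - σ α) * mX D (τ T) := by
      rw [map_sub, map_mul, ← hX', ← hY']; ring
    rw [e]
    refine v.map_sub_lt (by rw [I.val]; exact hF) ?_
    rw [map_mul, hc', v.map_sub_swap]
    calc v (σ α - α) * v (mX D T) < 1 * v (mX D T) :=
          mul_lt_mul_of_pos_right (I.lt α hαint) hc0
      _ = v (mX D T) := one_mul _
  by_cases hne : mX D (τ T) = mX D T
  · rcases eq_or_eq_neg_of_mX_eq D H.two_ne hT'0 hT0 hne with h | h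
    · exact Or.inl h
    · exfalso
      have e : mY D (τ T) - α * mX D (τ T) =
          -((mY D T - α * mX D T) + (2 * α + 1) * mX D T) := by
        rw [h, mY_neg D H.two_ne, mX_neg]; ring
      have h5 : v ((2 * α + 1) * mX D T) = v (mX D T) := by rw [map_mul, hδ, one_mul]
      have h6 : v ((mY D T - α * mX D T) + (2 * α + 1) * mX D T) = v (mX D T) := by
        rw [← h5]; exact v.map_add_eq_of_lt_right (by rw [h5]; exact hF)
      rw [e, v.map_neg, h6] at hF'
      exact lt_irrefl _ hF'
  · right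
    have hR0 : τ T - T ≠ 0 := sub_ne_zero.mpr (fun h => hne (by rw [h]))
    have hRt : p • (τ T - T) = 0 := by rw [smul_sub, hT', hT, sub_zero]
    have hle := tors_int H hp hp2 hRt hR0
    have e0 := m_sub D H.two_ne hT'0 hT0 hne
    set X := mX D T with hXdef
    set X' := mX D (τ T) with hX'def
    set u := (mY D T - α * X) + (mY D (τ T) - α * X') with hu
    have e1 : mX D (τ T - T) * (X' - X) ^ 2 =
        (4 * ca2 D + 1) * (X * X') +
          ((2 * α + 1) * (X + X') * u + u ^ 2 - (X + X') * (X' - X) ^ 2) := by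
      rw [e0, hu]
      linear_combination (X + X') ^ 2 * hα
    have e := congrArg v e1
    set c := v X with hc
    have hu_lt : v u < c := v.map_add_lt hF hF'
    have hsum : v (X + X') ≤ c := v.map_add_le le_rfl hc'.le
    have hdiff : v (X' - X) ≤ c := v.map_sub_le hc'.le le_rfl
    have hcc : c * c * c < c * c := by
      calc c * c * c < c * c * 1 := mul_lt_mul_of_pos_left hlt (mul_pos hc0 hc0)
        _ = c * c := mul_one _
    have hM : v ((4 * ca2 D + 1) * (X * X')) = c * c := by
      rw [map_mul, map_mul, H.b2, one_mul, hc']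
    have hRem : v ((2 * α + 1) * (X + X') * u + u ^ 2 - (X + X') * (X' - X) ^ 2) < c * c := by
      refine v.map_sub_lt (v.map_add_lt ?_ ?_) ?_
      · rw [map_mul, map_mul, hδ, one_mul]
        calc v (X + X') * v u ≤ c * v u := mul_le_mul' hsum le_rfl
          _ < c * c := mul_lt_mul_of_pos_left hu_lt hc0
      · rw [map_pow, pow_two]
        exact mul_lt_mul'' hu_lt hu_lt zero_le zero_le
      · rw [map_mul, map_pow, pow_two]
        calc v (X + X') * (v (X' - X) * v (X' - X)) ≤ c * (c * c) :=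
              mul_le_mul' hsum (mul_le_mul' hdiff hdiff)
          _ = c * c * c := (mul_assoc _ _ _).symm
          _ < c * c := hcc
    have hRHS : v ((4 * ca2 D + 1) * (X * X') +
          ((2 * α + 1) * (X + X') * u + u ^ 2 - (X + X') * (X' - X) ^ 2)) = c * c := by
      rw [← hM]; exact v.map_add_eq_of_lt_left (by rw [hM]; exact hRem)
    rw [hRHS, map_mul, map_pow] at e
    rcases lt_or_eq_of_le hle with hlt1 | h1
    · exfalso
      have : v (mX D (τ T - T)) * v (X' - X) ^ 2 < c * c := by
        calc v (mX D (τ T - T)) * v (X' - X) ^ 2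
            ≤ v (mX D (τ T - T)) * (c * c) := by
              rw [pow_two]; exact mul_le_mul' le_rfl (mul_le_mul' hdiff hdiff)
          _ < 1 * (c * c) := mul_lt_mul_of_pos_right hlt1 (mul_pos hc0 hc0)
          _ = c * c := one_mul _
      exact absurd e (ne_of_lt this)
    · exact h1

/-- **inertia acts unipotently** on the points of odd prime order. -/
theorem unipotent (H : Hyp D v) (I : Inert D v τ σ) {p : ℕ} (hp : p.Prime) (hp2 : p ≠ 2)
    (α : K) (hα : α ^ 2 + α = ca2 D) {T : G} (hT : p • T = 0) :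
    τ (τ T - T) = τ T - T := by
  by_cases hT0 : T = 0
  · subst hT0; simp
  have hint := tors_int H hp hp2 hT hT0
  rcases lt_or_eq_of_le hint with hlt | h1
  · have hg := tors_not_deep H hp hp2 hT hT0 hlt
    have key : τ T = T ∨ v (mX D (τ T - T)) = 1 := by
      rcases branch_lt H hT0 hlt hg α hα with hF | hF
      · exact node_core H I hp hp2 hT hT0 hlt α hα hF
      · refine node_core H I hp hp2 hT hT0 hlt (-1 - α) (by rw [← hα]; ring) ?_
        have e : mY D T - (-1 - α) * mX D T = mY D T + (1 + α) * mX D T := by ring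
        rw [e]; exact hF
    rcases key with h | h
    · rw [h, sub_self, map_zero]
    · have hR : p • (τ T - T) = 0 := by
        rw [smul_sub, ← map_nsmul, hT, map_zero, sub_zero]
      by_cases hR0 : τ T - T = 0
      · rw [hR0, map_zero]
      · exact fixed_of_unit H I hp hp2 hR hR0 h
  · have := fixed_of_unit H I hp hp2 hT hT0 h1
    rw [this, sub_self, map_zero]

end

end Fermat.Agent.S13.TwoDirect
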