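import Mathlib
import Fermat.Prelude.Def_FLTPrelim_Ramification
import Fermat.Agent.S05.FreyInst
import Fermat.Agent.S05.Glue
import Fermat.Agent.S13.TwoDirect.Inertia

/-!
# S13, local analysis at `2` (direct method): the Frey curve at a place above `2`

The Kummer data of the Frey curve relative to the `2`-torsion point `(0, 0)` satisfies the
hypotheses `Hyp` at every place above `2`, and inertia elements satisfy `Inert`.  Consequence:
`inertia_unipotent`.
-/

set_option autoImplicit false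

namespace Fermat.Agent.S13.TwoDirect

open Fermat.Agent.S05
open WeierstrassCurve WeierstrassCurve.Affine WeierstrassCurve.Affine.Point

/-- the Kummer data of the Frey curve over `ℚ̄` relative to the `2`-torsion point `(0, 0)` -/
noncomputable def freyD (P : FreyPackage) :
    KummerData (P.freyCurve⁄(AlgebraicClosure ℚ)).Point (AlgebraicClosure ℚ) :=
  FreyInst.kummer (K := AlgebraicClosure ℚ) P two_ne_zero 0 (by ring)

lemma freyD_β (P : FreyPackage) :
    (freyD P).β = ((P.b ^ P.p - P.a ^ P.p : ℤ) : AlgebraicClosure ℚ) := by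
  unfold freyD
  rw [FreyInst.kummer_β]
  have : (3 * (0 : ℚ) + (P.b : ℚ) ^ P.p - (P.a : ℚ) ^ P.p) = ((P.b ^ P.p - P.a ^ P.p : ℤ) : ℚ) := by
    push_cast; ring
  rw [this]; simp

lemma freyD_γ (P : FreyPackage) :
    (freyD P).γ = ((-(P.a ^ P.p * P.b ^ P.p) : ℤ) : AlgebraicClosure ℚ) := by
  unfold freyD
  rw [FreyInst.kummer_γ]
  have : (3 * (0 : ℚ) ^ 2 + 2 * 0 * ((P.b : ℚ) ^ P.p - (P.a : ℚ) ^ P.p)
      - (P.a : ℚ) ^ P.p * (P.b : ℚ) ^ P.p) = ((-(P.a ^ P.p * P.b ^ P.p) : ℤ) : ℚ) := by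
    push_cast; ring
  rw [this]; simp

/-- `a` is odd -/
lemma frey_a_odd (P : FreyPackage) : ¬ (2 : ℤ) ∣ P.a := by
  intro h
  have h4 := P.ha4
  obtain ⟨k, hk⟩ := h
  rw [hk] at h4
  have h5 : ((2 * k : ℤ) : ZMod 4) = 2 * (k : ZMod 4) := by push_cast; ring
  rw [h5] at h4
  revert h4
  generalize (k : ZMod 4) = z
  revert z
  decide

/-- `4 ∣ a + 1` -/
lemma frey_a_add_one (P : FreyPackage) : (4 : ℤ) ∣ P.a + 1 := by
  have h4 := P.ha4
  have : ((P.a + 1 : ℤ) : ZMod 4) = 0 := by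
    push_cast; rw [h4]; decide
  exact (ZMod.intCast_zmod_eq_zero_iff_dvd _ 4).mp this

/-- `b` is even -/
lemma frey_b_even (P : FreyPackage) : (2 : ℤ) ∣ P.b :=
  (ZMod.intCast_zmod_eq_zero_iff_dvd _ 2).mp P.hb2

/-- `a₂` of the Frey curve is an integer -/
lemma exists_a2 (P : FreyPackage) : ∃ m : ℤ, ca2 (freyD P) = (m : AlgebraicClosure ℚ) := by
  have h1 : (4 : ℤ) ∣ P.a ^ P.p + 1 := by
    have := Odd.add_dvd_pow_add_pow P.a 1 P.hp_odd
    rw [one_pow] at this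
    exact dvd_trans (frey_a_add_one P) this
  have h2 : (4 : ℤ) ∣ P.b ^ P.p := by
    obtain ⟨k, hk⟩ := frey_b_even P
    have hp : P.p = 2 + (P.p - 2) := by have := P.hp5; omega
    rw [hk, hp, pow_add]
    exact Dvd.dvd.mul_right ⟨k ^ 2, by ring⟩ _
  obtain ⟨m, hm⟩ : (4 : ℤ) ∣ P.b ^ P.p - P.a ^ P.p - 1 := by
    have : P.b ^ P.p - P.a ^ P.p - 1 = P.b ^ P.p - (P.a ^ P.p + 1) := by ring
    rw [this]; exact dvd_sub h2 h1
  refine ⟨m, ?_⟩
  unfold ca2
  rw [freyD_β]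
  have h4 : (4 : AlgebraicClosure ℚ) ≠ 0 := four_ne two_ne_zero
  rw [div_eq_iff h4]
  have : ((P.b ^ P.p - P.a ^ P.p : ℤ) : AlgebraicClosure ℚ) - 1 =
      ((P.b ^ P.p - P.a ^ P.p - 1 : ℤ) : AlgebraicClosure ℚ) := by push_cast; ring
  rw [this, hm]; push_cast; ring

/-- `a₄` of the Frey curve is `2 ^ (p s - 4)` times an odd integer, `s = v₂(b) ≥ 1`. -/
lemma exists_a4 (P : FreyPackage) : ∃ (s : ℕ) (n : ℤ), 1 ≤ s ∧ ¬ (2 : ℤ) ∣ n ∧
    ca4 (freyD P) = (2 : AlgebraicClosure ℚ) ^ (P.p * s - 4) * (n : AlgebraicClosure ℚ) := by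
  have hfin : FiniteMultiplicity (2 : ℤ) P.b := Int.finiteMultiplicity_iff.mpr ⟨by decide, P.hb0⟩
  obtain ⟨c, hc, hc2⟩ := hfin.exists_eq_pow_mul_and_not_dvd
  set s := multiplicity (2 : ℤ) P.b with hs
  have hs1 : 1 ≤ s := by
    by_contra h
    have h0 : s = 0 := by omega
    rw [h0, pow_zero, one_mul] at hc
    exact hc2 (hc ▸ frey_b_even P)
  have h2p : Prime (2 : ℤ) := Int.prime_two
  have hodd : ¬ (2 : ℤ) ∣ -(P.a ^ P.p * c ^ P.p) := by
    rw [dvd_neg]
    intro h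
    rcases h2p.dvd_or_dvd h with h | h
    · exact frey_a_odd P (h2p.dvd_of_dvd_pow h)
    · exact hc2 (h2p.dvd_of_dvd_pow h)
  refine ⟨s, -(P.a ^ P.p * c ^ P.p), hs1, hodd, ?_⟩
  unfold ca4
  rw [freyD_γ]
  have h16 : (16 : AlgebraicClosure ℚ) ≠ 0 := sixteen_ne two_ne_zero
  rw [div_eq_iff h16]
  have hps : P.p * s = (P.p * s - 4) + 4 := by
    have := P.hp5
    have : 5 * 1 ≤ P.p * s := Nat.mul_le_mul P.hp5 hs1
    omega
  have hb : P.b ^ P.p = 2 ^ (P.p * s - 4) * 16 * c ^ P.p := by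
    conv_lhs => rw [hc, mul_pow, ← pow_mul, mul_comm s P.p, hps, pow_add]
    norm_num
  rw [hb]; push_cast; ring

/-- the standing hypotheses hold for the Frey curve at every place above `2` -/
theorem freyHyp (P : FreyPackage) (A : ValuationSubring (AlgebraicClosure ℚ))
    (hA : A.LiesOverPrime 2) : Hyp (freyD P) A.valuation := by
  have h2 : A.valuation (2 : AlgebraicClosure ℚ) < 1 := by
    have := (A.mem_nonunits_iff).mp hA
    simpa using this
  obtain ⟨m, hm⟩ := exists_a2 P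
  obtain ⟨s, n, hs1, hn, h4⟩ := exists_a4 P
  have hn1 : A.valuation (n : AlgebraicClosure ℚ) = 1 :=
    (val_intCast_eq_one_iff A Nat.prime_two hA n).mpr (by exact_mod_cast hn)
  have hpos : 0 < P.p * s - 4 := by
    have : 5 * 1 ≤ P.p * s := Nat.mul_le_mul P.hp5 hs1
    omega
  refine ⟨h2, two_ne_zero, ?_, ?_, ?_⟩
  · rw [hm]; exact val_intCast_le_one A m
  · rw [h4, map_mul, map_pow, hn1, mul_one]
    exact pow_lt_one₀ zero_le h2 hpos.ne'
  · rw [h4]
    refine mul_ne_zero (pow_ne_zero _ two_ne_zero) ?_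
    intro h0
    rw [h0] at hn1
    simp at hn1

/-- inertia elements satisfy `Inert` -/
theorem freyInert (P : FreyPackage) (A : ValuationSubring (AlgebraicClosure ℚ))
    (σ : AlgebraicClosure ℚ ≃ₐ[ℚ] AlgebraicClosure ℚ) (hσ : σ ∈ A.inertiaSubgroupIn ℚ) :
    Inert (freyD P) A.valuation (FreyKummer.galAddHom σ)
      (σ : AlgebraicClosure ℚ →+* AlgebraicClosure ℚ) := by
  have : Algebra.IsAlgebraic ℚ (AlgebraicClosure ℚ) := by
    have h : (DivisionRing.toRatAlgebra : Algebra ℚ (AlgebraicClosure ℚ)) =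
        AlgebraicClosure.instAlgebra ℚ := Subsingleton.elim _ _
    rw [h]
    exact AlgebraicClosure.isAlgebraic ℚ
  exact
    { x := fun Q _ => FreyInst.kummer_x_smul P two_ne_zero 0 (by ring) σ Q
      y := fun Q _ => FreyInst.kummer_y_smul P two_ne_zero 0 (by ring) σ Q
      ne := fun Q hQ => (PointAlg.smul_ne_zero_iff σ Q).mpr hQ
      lt := fun a ha => inertia_sub_lt A σ hσ a ha
      val := fun a => inertia_val_eq A σ hσ a }

/-- a root of `t² + t = a₂` -/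
lemma exists_alpha (P : FreyPackage) :
    ∃ α : AlgebraicClosure ℚ, α ^ 2 + α = ca2 (freyD P) := by
  obtain ⟨δ, hδ⟩ := IsAlgClosed.exists_pow_nat_eq (4 * ca2 (freyD P) + 1) (n := 2) (by norm_num)
  refine ⟨(δ - 1) / 2, ?_⟩
  have h2 : (2 : AlgebraicClosure ℚ) ≠ 0 := two_ne_zero
  field_simp
  linear_combination hδ

/-- **(T2-U)** inertia at a place above `2` acts unipotently on the `p`-torsion of the Frey
curve. -/
theorem inertia_unipotent (P : FreyPackage) (A : ValuationSubring (AlgebraicClosure ℚ))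
    (hA : A.LiesOverPrime 2) (σ : AlgebraicClosure ℚ ≃ₐ[ℚ] AlgebraicClosure ℚ)
    (hσ : σ ∈ A.inertiaSubgroupIn ℚ) (T : (P.freyCurve⁄(AlgebraicClosure ℚ)).Point)
    (hT : P.p • T = 0) : σ • (σ • T - T) = σ • T - T := by
  obtain ⟨α, hα⟩ := exists_alpha P
  have hp2 : P.p ≠ 2 := by have := P.hp5; omega
  exact unipotent (freyHyp P A hA) (freyInert P A σ hσ) P.pp hp2 α hα hT

end Fermat.Agent.S13.TwoDirect
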