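import Mathlib
import Fermat.Agent.S13.TwoDirect.Dbl

/-!
# S13, local analysis at `2` (direct method): no point of odd prime order with value-group
constraints

Abstract form of "the Frey curve has no rational point of order `p`".
* `unit_absurd` : a torsion point `T` with unit abscissa and `X(2T) ≡ X(T)` does not exist
  (`3T` would lie in the kernel of reduction);
* `node_pow` : if all nonzero multiples of `T` lie near the node and `T` has the largest `v X`
  among them, then `v X(kT) = v X(T) ^ k` for `k ≤ (p - 1) / 2` and `v X(T) ^ p = v a₄ ^ 2`;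
* `no_rational` : contradiction when the values of `v X` on the multiples of `T` are powers of
  `v 2`, `v a₄ = v 2 ^ N` and `p ∤ 2 N`.
-/

set_option autoImplicit false

namespace Fermat.Agent.S13.TwoDirect

open Fermat.Agent.S05

section
variable {G K Γ₀ : Type*} [AddCommGroup G] [Field K] [LinearOrderedCommGroupWithZero Γ₀]
  {D : KummerData G K} {v : Valuation K Γ₀}

/-- a torsion point with unit abscissa cannot have `X(2T) ≡ X(T)`. -/
theorem unit_absurd (H : Hyp D v) {p : ℕ} (hp : p.Prime) (hp5 : 5 ≤ p) {T : G}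
    (hT : p • T = 0) (hT0 : T ≠ 0) (h1 : v (mX D T) = 1)
    (hd : v (mX D (T + T) - mX D T) < 1) : False := by
  have hp2 : p ≠ 2 := by omega
  have hPP0 := add_self_ne_zero hp hp2 hT hT0
  have h3 : 3 • T ≠ 0 := nsmul_ne_zero_of_lt hp hT0 hT (by norm_num) (by omega)
  have h3' : T + T + T ≠ 0 := by
    intro h; apply h3; rw [← h]; simp only [succ_nsmul, zero_nsmul, zero_add]
  have hne : mX D (T + T) ≠ mX D T := by
    intro h
    rcases eq_or_eq_neg_of_mX_eq D H.two_ne hPP0 hT0 h with h | h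
    · exact hT0 (by simpa using h)
    · apply h3'; rw [h]; exact neg_add_cancel T
  have e := congrArg v (m_prod D H.two_ne hPP0 hT0 hne)
  rw [add_sub_cancel_right, map_mul, map_mul, map_pow, map_pow, h1, mul_one] at e
  have h2 : v (mX D (T + T)) = 1 := dbl_unit H hT0 (y_ne_of_tors hp hp2 hT hT0) h1
  have h4 : v (mX D (T + T) * mX D T - ca4 D) = 1 := by
    have : v (mX D (T + T) * mX D T) = 1 := by rw [map_mul, h2, h1, one_mul]
    rw [← this]
    apply v.map_sub_eq_of_lt_left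
    rw [this]; exact H.a4
  rw [h4, one_pow] at e
  have hle : v (mX D (T + T + T)) ≤ 1 :=
    tors_int H hp hp2 (by rw [smul_add, smul_add, hT, add_zero, add_zero]) h3'
  have : v (mX D (T + T + T)) * v (mX D (T + T) - mX D T) ^ 2 < 1 := by
    calc v (mX D (T + T + T)) * v (mX D (T + T) - mX D T) ^ 2
        ≤ 1 * v (mX D (T + T) - mX D T) ^ 2 := mul_le_mul' hle le_rfl
      _ = v (mX D (T + T) - mX D T) ^ 2 := one_mul _
      _ < 1 := pow_lt_one₀ zero_le hd two_ne_zero
  exact absurd e (ne_of_lt this)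

/-- nonzero elements of the cyclic group generated by a `p`-torsion point are multiples by
`1 ≤ k ≤ p - 1`. -/
lemma exists_nsmul_of_mem {p : ℕ} (hp : 0 < p) {T : G} (hT : p • T = 0) {Q : G}
    (hQ : Q ∈ AddSubgroup.zmultiples T) (hQ0 : Q ≠ 0) :
    ∃ k : ℕ, 1 ≤ k ∧ k ≤ p - 1 ∧ Q = k • T := by
  obtain ⟨j, rfl⟩ := AddSubgroup.mem_zmultiples_iff.mp hQ
  have h1 : 0 ≤ j % p := Int.emod_nonneg j (by omega)
  have h2 : j % p < p := Int.emod_lt_of_pos j (by omega)
  obtain ⟨k, hk⟩ := Int.eq_ofNat_of_zero_le h1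
  have h3 : j • T = k • T := by
    have e : j = p * (j / p) + j % p := (Int.mul_ediv_add_emod j p).symm
    have hpT : (p : ℤ) • T = 0 := by rw [natCast_zsmul, hT]
    conv_lhs => rw [e]
    rw [add_zsmul, mul_comm, mul_zsmul, hpT, smul_zero, zero_add, hk, natCast_zsmul]
  refine ⟨k, ?_, by omega, h3⟩
  by_contra h
  have : k = 0 := by omega
  rw [h3, this, zero_nsmul] at hQ0
  exact hQ0 rfl

lemma zm_tors {p : ℕ} {T : G} (hT : p • T = 0) {Q : G} (hQ : Q ∈ AddSubgroup.zmultiples T) :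
    p • Q = 0 := by
  obtain ⟨j, rfl⟩ := AddSubgroup.mem_zmultiples_iff.mp hQ
  rw [smul_comm, hT, smul_zero]

end

section node
variable {G K Γ₀ : Type*} [AddCommGroup G] [Field K] [LinearOrderedCommGroupWithZero Γ₀]
  {D : KummerData G K} {v : Valuation K Γ₀}

/-- standing assumptions of the node analysis: `T` has order `p`, `v X(T) < 1`, and `v X(T)` is
maximal among the nonzero multiples of `T`. -/
structure NodeMax (D : KummerData G K) (v : Valuation K Γ₀) (p : ℕ) (T : G) : Prop where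
  hyp : Hyp D v
  prime : p.Prime
  five : 5 ≤ p
  tors : p • T = 0
  ne : T ≠ 0
  lt : v (mX D T) < 1
  max : ∀ Q ∈ AddSubgroup.zmultiples T, Q ≠ 0 → v (mX D Q) ≤ v (mX D T)

variable {p : ℕ} {T : G}

lemma NodeMax.ne_two (M : NodeMax D v p T) : p ≠ 2 := by have := M.five; omega

lemma NodeMax.pos (M : NodeMax D v p T) : 0 < v (mX D T) :=
  zero_lt_iff.mpr ((map_ne_zero v).mpr (mX_ne_of_tors M.hyp M.prime M.ne_two M.tors M.ne))

lemma NodeMax.sq_lt (M : NodeMax D v p T) : v (mX D T) * v (mX D T) < v (mX D T) := by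
  calc v (mX D T) * v (mX D T) < v (mX D T) * 1 := mul_lt_mul_of_pos_left M.lt M.pos
    _ = v (mX D T) := mul_one _

/-- nonzero multiples are near the node but not deep -/
lemma NodeMax.g_lt (M : NodeMax D v p T) {Q : G} (hQ : Q ∈ AddSubgroup.zmultiples T)
    (hQ0 : Q ≠ 0) : v (ca4 D) < v (mX D Q) :=
  tors_not_deep M.hyp M.prime M.ne_two (zm_tors M.tors hQ) hQ0
    (lt_of_le_of_lt (M.max Q hQ hQ0) M.lt)

lemma NodeMax.g_lt_C (M : NodeMax D v p T) : v (ca4 D) < v (mX D T) :=
  M.g_lt (AddSubgroup.mem_zmultiples T) M.ne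

lemma NodeMax.mem_add (_M : NodeMax D v p T) {Q : G} (hQ : Q ∈ AddSubgroup.zmultiples T) :
    Q + T ∈ AddSubgroup.zmultiples T :=
  AddSubgroup.add_mem _ hQ (AddSubgroup.mem_zmultiples T)

lemma NodeMax.mem_sub (_M : NodeMax D v p T) {Q : G} (hQ : Q ∈ AddSubgroup.zmultiples T) :
    Q - T ∈ AddSubgroup.zmultiples T :=
  AddSubgroup.sub_mem _ hQ (AddSubgroup.mem_zmultiples T)

/-- the maximum is attained only at `± T` -/
lemma NodeMax.max_unique (M : NodeMax D v p T) {Q : G} (hQ : Q ∈ AddSubgroup.zmultiples T)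
    (hQ0 : Q ≠ 0) (h1 : Q ≠ T) (h2 : Q ≠ -T) : v (mX D Q) < v (mX D T) := by
  by_contra hcon
  have hEq : v (mX D Q) = v (mX D T) := le_antisymm (M.max Q hQ hQ0) (not_lt.mp hcon)
  have hne : mX D Q ≠ mX D T := by
    intro h
    rcases eq_or_eq_neg_of_mX_eq D M.hyp.two_ne hQ0 M.ne h with h | h
    · exact h1 h
    · exact h2 h
  have hp0 : Q + T ≠ 0 := fun h => h2 (eq_neg_of_add_eq_zero_left h)
  have hm0 : Q - T ≠ 0 := sub_ne_zero.mpr h1
  have e := congrArg v (m_sum D M.hyp.two_ne hQ0 M.ne hne)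
  set C := v (mX D T) with hC
  have hC0 : 0 < C := M.pos
  have hCC : C * C < C := M.sq_lt
  have hmain : v ((4 * ca2 D + 1) * (mX D Q * mX D T)) = C * C := by
    rw [map_mul, map_mul, M.hyp.b2, one_mul, hEq]
  have hrem : v (2 * (mX D Q + mX D T) * (mX D Q * mX D T + ca4 D)) < C * C := by
    rw [map_mul, map_mul]
    have h3 : v (mX D Q + mX D T) ≤ C := v.map_add_le hEq.le le_rfl
    have h4 : v (mX D Q * mX D T + ca4 D) ≤ C := by
      refine v.map_add_le ?_ M.g_lt_C.le
      rw [map_mul, hEq]; exact hCC.le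
    calc v 2 * v (mX D Q + mX D T) * v (mX D Q * mX D T + ca4 D)
        ≤ v 2 * C * C := mul_le_mul' (mul_le_mul' le_rfl h3) h4
      _ = v 2 * (C * C) := mul_assoc _ _ _
      _ < 1 * (C * C) := mul_lt_mul_of_pos_right M.hyp.two (mul_pos hC0 hC0)
      _ = C * C := one_mul _
  have hR : v (2 * (mX D Q + mX D T) * (mX D Q * mX D T + ca4 D)
      + (4 * ca2 D + 1) * (mX D Q * mX D T)) = C * C := by
    rw [← hmain]; exact v.map_add_eq_of_lt_right (by rw [hmain]; exact hrem)
  rw [hR, map_mul, map_pow] at e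
  have hd : v (mX D Q - mX D T) ≤ C := v.map_sub_le hEq.le le_rfl
  have hs : v (mX D (Q + T) + mX D (Q - T)) ≤ C :=
    v.map_add_le (M.max _ (M.mem_add hQ) hp0) (M.max _ (M.mem_sub hQ) hm0)
  have : v (mX D (Q + T) + mX D (Q - T)) * v (mX D Q - mX D T) ^ 2 < C * C := by
    calc v (mX D (Q + T) + mX D (Q - T)) * v (mX D Q - mX D T) ^ 2
        ≤ C * (C * C) := by
          rw [pow_two]; exact mul_le_mul' hs (mul_le_mul' hd hd)
      _ < 1 * (C * C) := mul_lt_mul_of_pos_right M.lt (mul_pos hC0 hC0)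
      _ = C * C := one_mul _
  exact absurd e (ne_of_lt this)

/-- descent: from a multiple `Q ≠ ± T` one of `Q ± T` is larger by the factor `v X(T)⁻¹`. -/
lemma NodeMax.descent (M : NodeMax D v p T) {Q : G} (hQ : Q ∈ AddSubgroup.zmultiples T)
    (hQ0 : Q ≠ 0) (h1 : Q ≠ T) (h2 : Q ≠ -T) :
    v (mX D Q) ≤ v (mX D T) * v (mX D (Q + T)) ∨ v (mX D Q) ≤ v (mX D T) * v (mX D (Q - T)) := by
  have hlt := M.max_unique hQ hQ0 h1 h2
  have hne : mX D Q ≠ mX D T := fun h => (ne_of_lt hlt) (by rw [h])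
  have e := congrArg v (m_sum D M.hyp.two_ne hQ0 M.ne hne)
  set C := v (mX D T) with hC
  set u := v (mX D Q) with hu
  have hC0 : 0 < C := M.pos
  have hu0 : 0 < u := lt_trans M.hyp.a4_pos (M.g_lt hQ hQ0)
  have hgu : v (ca4 D) < u := M.g_lt hQ hQ0
  have hd : v (mX D Q - mX D T) = C := v.map_sub_eq_of_lt_right hlt
  have hmain : v ((4 * ca2 D + 1) * (mX D Q * mX D T)) = u * C := by
    rw [map_mul, map_mul, M.hyp.b2, one_mul]
  have h3 : v (mX D Q + mX D T) ≤ C := v.map_add_le hlt.le le_rfl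
  have h2C : v 2 * C < 1 := by
    calc v 2 * C ≤ 1 * C := mul_le_mul' M.hyp.two.le le_rfl
      _ = C := one_mul _
      _ < 1 := M.lt
  have hrem : v (2 * (mX D Q + mX D T) * (mX D Q * mX D T + ca4 D)) < u * C := by
    have hsplit : 2 * (mX D Q + mX D T) * (mX D Q * mX D T + ca4 D) =
        2 * (mX D Q + mX D T) * (mX D Q * mX D T) + 2 * (mX D Q + mX D T) * ca4 D := by ring
    rw [hsplit]
    refine v.map_add_lt ?_ ?_
    · rw [map_mul, map_mul, map_mul]
      calc v 2 * v (mX D Q + mX D T) * (u * C) ≤ v 2 * C * (u * C) :=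
            mul_le_mul' (mul_le_mul' le_rfl h3) le_rfl
        _ < 1 * (u * C) := mul_lt_mul_of_pos_right h2C (mul_pos hu0 hC0)
        _ = u * C := one_mul _
    · rw [map_mul, map_mul]
      calc v 2 * v (mX D Q + mX D T) * v (ca4 D) ≤ 1 * C * v (ca4 D) :=
            mul_le_mul' (mul_le_mul' M.hyp.two.le h3) le_rfl
        _ = C * v (ca4 D) := by rw [one_mul]
        _ < C * u := mul_lt_mul_of_pos_left hgu hC0
        _ = u * C := mul_comm _ _
  have hR : v (2 * (mX D Q + mX D T) * (mX D Q * mX D T + ca4 D)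
      + (4 * ca2 D + 1) * (mX D Q * mX D T)) = u * C := by
    rw [← hmain]; exact v.map_add_eq_of_lt_right (by rw [hmain]; exact hrem)
  rw [hR, map_mul, map_pow, hd, pow_two, ← mul_assoc] at e
  have e' : v (mX D (Q + T) + mX D (Q - T)) * C = u := mul_right_cancel₀ hC0.ne' e
  rcases v.map_add' (mX D (Q + T)) (mX D (Q - T)) with h | h
  · left
    rw [← e', mul_comm]; exact mul_le_mul' le_rfl h
  · right
    rw [← e', mul_comm]; exact mul_le_mul' le_rfl h

/-- a multiple of `T` with large abscissa is a small multiple -/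
lemma NodeMax.ladder (M : NodeMax D v p T) (n : ℕ) :
    ∀ Q ∈ AddSubgroup.zmultiples T, Q ≠ 0 → v (mX D T) ^ (n + 2) < v (mX D Q) →
      ∃ j : ℤ, -(n + 1 : ℤ) ≤ j ∧ j ≤ n + 1 ∧ Q = j • T := by
  have hC0 : 0 < v (mX D T) := M.pos
  induction n with
  | zero =>
    intro Q hQ hQ0 hlt
    by_cases h1 : Q = T
    · exact ⟨1, by norm_num, by norm_num, by rw [h1, one_zsmul]⟩
    by_cases h2 : Q = -T
    · exact ⟨-1, by norm_num, by norm_num, by rw [h2, neg_one_zsmul]⟩
    exfalso
    have hp0 : Q + T ≠ 0 := fun h => h2 (eq_neg_of_add_eq_zero_left h)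
    have hm0 : Q - T ≠ 0 := sub_ne_zero.mpr h1
    have key : v (mX D Q) ≤ v (mX D T) * v (mX D T) := by
      rcases M.descent hQ hQ0 h1 h2 with h | h
      · exact le_trans h (mul_le_mul' le_rfl (M.max _ (M.mem_add hQ) hp0))
      · exact le_trans h (mul_le_mul' le_rfl (M.max _ (M.mem_sub hQ) hm0))
    rw [zero_add, pow_two] at hlt
    exact absurd key (not_le.mpr hlt)
  | succ n ih =>
    intro Q hQ hQ0 hlt
    by_cases h1 : Q = T
    · exact ⟨1, by push_cast; omega, by push_cast; omega, by rw [h1, one_zsmul]⟩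
    by_cases h2 : Q = -T
    · exact ⟨-1, by push_cast; omega, by push_cast; omega, by rw [h2, neg_one_zsmul]⟩
    have hp0 : Q + T ≠ 0 := fun h => h2 (eq_neg_of_add_eq_zero_left h)
    have hm0 : Q - T ≠ 0 := sub_ne_zero.mpr h1
    have hstep : ∀ Q' : G, v (mX D Q) ≤ v (mX D T) * v (mX D Q') →
        v (mX D T) ^ (n + 2) < v (mX D Q') := by
      intro Q' h
      have h3 : v (mX D T) * v (mX D T) ^ (n + 2) < v (mX D T) * v (mX D Q') := by
        rw [← pow_succ']; exact lt_of_lt_of_le hlt h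
      exact lt_of_mul_lt_mul_left h3 zero_le
    rcases M.descent hQ hQ0 h1 h2 with h | h
    · obtain ⟨j, hj1, hj2, hj⟩ := ih (Q + T) (M.mem_add hQ) hp0 (hstep _ h)
      refine ⟨j - 1, by push_cast; omega, by push_cast; omega, ?_⟩
      rw [sub_zsmul, one_zsmul, ← hj]; abel
    · obtain ⟨j, hj1, hj2, hj⟩ := ih (Q - T) (M.mem_sub hQ) hm0 (hstep _ h)
      refine ⟨j + 1, by push_cast; omega, by push_cast; omega, ?_⟩
      rw [add_zsmul, one_zsmul, ← hj]; abel

lemma NodeMax.nsmul_ne (M : NodeMax D v p T) {k : ℕ} (hk : 0 < k) (hkp : k < p) : k • T ≠ 0 :=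
  nsmul_ne_zero_of_lt M.prime M.ne M.tors hk hkp

/-- upper bound `v X(kT) ≤ v X(T) ^ k` for `k ≤ (p - 1) / 2` -/
lemma NodeMax.upper (M : NodeMax D v p T) {k : ℕ} (hk : 1 ≤ k) (hkp : 2 * k + 1 ≤ p) :
    v (mX D (k • T)) ≤ v (mX D T) ^ k := by
  rcases Nat.lt_or_ge k 2 with hk2 | hk2
  · have : k = 1 := by omega
    subst this
    rw [one_nsmul, pow_one]
  by_contra hcon
  rw [not_le] at hcon
  have hk0 : k • T ≠ 0 := M.nsmul_ne (by omega) (by omega)
  have hkk : k - 2 + 2 = k := by omega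
  obtain ⟨j, hj1, hj2, hj⟩ := M.ladder (k - 2) (k • T) (AddSubgroup.nsmul_mem_zmultiples T k) hk0
    (by rw [hkk]; exact hcon)
  have hcast : ((k - 2 : ℕ) : ℤ) = (k : ℤ) - 2 := by omega
  rw [hcast] at hj1 hj2
  have hm : 0 ≤ (k : ℤ) - j := by omega
  obtain ⟨m, hm'⟩ := Int.eq_ofNat_of_zero_le hm
  have hmT : m • T = 0 := by
    have : ((k : ℤ) - j) • T = 0 := by
      rw [sub_zsmul, natCast_zsmul, hj]; abel
    rw [hm', natCast_zsmul] at this
    exact this
  exact M.nsmul_ne (k := m) (by omega) (by omega) hmT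

/-- the value of `v X` at `2T` -/
lemma NodeMax.two (M : NodeMax D v p T) : v (mX D (T + T)) = v (mX D T) ^ 2 := by
  have hy := y_ne_of_tors (D := D) M.prime M.ne_two M.tors M.ne
  have e := congrArg v (m_dbl D M.hyp.two_ne M.ne hy)
  rw [map_mul, map_mul, map_pow] at e
  have hup := M.upper (k := 2) (by norm_num) (by have := M.five; omega)
  rw [two_nsmul] at hup
  have hTT0 : T + T ≠ 0 := add_self_ne_zero M.prime M.ne_two M.tors M.ne
  have hTTmem : T + T ∈ AddSubgroup.zmultiples T := M.mem_add (AddSubgroup.mem_zmultiples T)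
  have hg2 : v (ca4 D) < v (mX D (T + T)) := M.g_lt hTTmem hTT0
  set C := v (mX D T) with hC
  set g := v (ca4 D) with hg
  have hC0 : 0 < C := M.pos
  have hgC : g < C := M.g_lt_C
  have hCC : C * C < C := M.sq_lt
  -- the middle factor has valuation `C`
  have hW : v (4 * mX D T ^ 2 + (4 * ca2 D + 1) * mX D T + 4 * ca4 D) = C := by
    have hb : v ((4 * ca2 D + 1) * mX D T) = C := by rw [map_mul, M.hyp.b2, one_mul]
    have h4 : v (4 * mX D T ^ 2) < C := by
      rw [map_mul, map_pow, ← hC, pow_two]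
      calc v 4 * (C * C) ≤ 1 * (C * C) := mul_le_mul' M.hyp.four.le le_rfl
        _ = C * C := one_mul _
        _ < C := hCC
    have h5 : v (4 * ca4 D) < C := by
      rw [map_mul, ← hg]
      calc v 4 * g ≤ 1 * g := mul_le_mul' M.hyp.four.le le_rfl
        _ = g := one_mul _
        _ < C := hgC
    have h6 : v (4 * mX D T ^ 2 + (4 * ca2 D + 1) * mX D T) = C := by
      rw [← hb]; apply v.map_add_eq_of_lt_right; rw [hb]; exact h4
    rw [← h6]; apply v.map_add_eq_of_lt_left; rw [h6]; exact h5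
  rw [hW] at e
  have hX2 : v (mX D T ^ 2) = C * C := by rw [map_pow, pow_two]
  rcases lt_trichotomy g (C * C) with hlt | heq | hgt
  · have h1 : v (mX D T ^ 2 - ca4 D) = C * C := by
      rw [← hX2]; apply v.map_sub_eq_of_lt_left; rw [hX2]; exact hlt
    rw [h1, pow_two, mul_assoc] at e
    rw [pow_two]
    exact mul_right_cancel₀ (mul_pos hC0 hC0).ne' e
  · exfalso
    have h1 : v (mX D T ^ 2 - ca4 D) ≤ g := v.map_sub_le (by rw [hX2, heq]) le_rfl
    have h2 : v (mX D (T + T)) * C * C ≤ g * (C * C) := by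
      rw [e, pow_two]
      calc v (mX D T ^ 2 - ca4 D) * v (mX D T ^ 2 - ca4 D) ≤ g * g := mul_le_mul' h1 h1
        _ = g * (C * C) := by rw [← heq]
    rw [mul_assoc] at h2
    have h3 : v (mX D (T + T)) ≤ g := le_of_mul_le_mul_right h2 (mul_pos hC0 hC0)
    exact absurd h3 (not_le.mpr hg2)
  · exfalso
    have h1 : v (mX D T ^ 2 - ca4 D) = g := by
      apply v.map_sub_eq_of_lt_right; rw [hX2]; exact hgt
    rw [h1, pow_two, mul_assoc] at e
    have h2 : g * g ≤ C * C * (C * C) := by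
      rw [← e]; rw [pow_two] at hup; exact mul_le_mul' hup le_rfl
    exact absurd h2 (not_le.mpr (mul_lt_mul'' hgt hgt zero_le zero_le))

/-- `v X(kT) = v X(T) ^ k` for `1 ≤ k ≤ (p - 1) / 2` -/
lemma NodeMax.exact (M : NodeMax D v p T) (k : ℕ) (hk : 1 ≤ k) (hkp : 2 * k + 1 ≤ p) :
    v (mX D (k • T)) = v (mX D T) ^ k := by
  induction k using Nat.strong_induction_on with
  | _ k ih =>
    rcases Nat.lt_or_ge k 2 with hk2 | hk2
    · have : k = 1 := by omega
      subst this
      rw [one_nsmul, pow_one]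
    rcases Nat.lt_or_ge k 3 with hk3 | hk3
    · have : k = 2 := by omega
      subst this
      rw [two_nsmul]; exact M.two
    -- `k = m + 1`, `m ≥ 2`
    obtain ⟨m, rfl⟩ : ∃ m, k = m + 1 := ⟨k - 1, by omega⟩
    have hm := ih m (by omega) (by omega) (by omega)
    have hm1 := ih (m - 1) (by omega) (by omega) (by omega)
    set C := v (mX D T) with hC
    have hC0 : 0 < C := M.pos
    have hmT0 : m • T ≠ 0 := M.nsmul_ne (by omega) (by omega)
    have hlt : v (mX D (m • T)) < C := by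
      rw [hm]
      calc C ^ m < C ^ 1 := pow_lt_pow_right_of_lt_one₀ hC0 M.lt (by omega)
        _ = C := pow_one _
    have hne : mX D (m • T) ≠ mX D T := fun h => (ne_of_lt hlt) (by rw [h])
    have e := congrArg v (m_prod D M.hyp.two_ne hmT0 M.ne hne)
    have hadd : m • T + T = (m + 1) • T := (succ_nsmul T m).symm
    have hsub : m • T - T = (m - 1) • T := by
      have : m = (m - 1) + 1 := by omega
      conv_lhs => rw [this, succ_nsmul, add_sub_cancel_right]
    rw [hadd, hsub, map_mul, map_mul, map_pow, map_pow, hm1,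
      v.map_sub_eq_of_lt_right hlt] at e
    have hk0 : (m + 1) • T ≠ 0 := M.nsmul_ne (by omega) (by omega)
    have hup := M.upper (k := m + 1) (by omega) hkp
    have hg := M.g_lt (AddSubgroup.nsmul_mem_zmultiples T (m + 1)) hk0
    have hXX : v (mX D (m • T) * mX D T) = C ^ (m + 1) := by
      rw [map_mul, hm, ← hC, pow_succ]
    have h1 : v (mX D (m • T) * mX D T - ca4 D) = C ^ (m + 1) := by
      rw [← hXX]; apply v.map_sub_eq_of_lt_left; rw [hXX]; exact lt_of_lt_of_le hg hup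
    rw [h1] at e
    have e2 : v (mX D ((m + 1) • T)) * C ^ (m + 1) = C ^ (m + 1) * C ^ (m + 1) := by
      rw [← pow_two, ← e, mul_assoc, ← pow_add]
      congr 2
      omega
    exact mul_right_cancel₀ (pow_pos hC0 _).ne' e2

/-- **the node relation** `v X(T) ^ p = v a₄ ^ 2`. -/
theorem NodeMax.node_pow (M : NodeMax D v p T) : v (mX D T) ^ p = v (ca4 D) ^ 2 := by
  obtain ⟨h, hh⟩ := M.prime.odd_of_ne_two M.ne_two
  have h2 : 2 ≤ h := by have := M.five; omega
  have hh0 := M.exact h (by omega) (by omega)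
  have hh1 := M.exact (h - 1) (by omega) (by omega)
  set C := v (mX D T) with hC
  set g := v (ca4 D) with hg
  have hC0 : 0 < C := M.pos
  have hhT0 : h • T ≠ 0 := M.nsmul_ne (by omega) (by omega)
  have hlt : v (mX D (h • T)) < C := by
    rw [hh0]
    calc C ^ h < C ^ 1 := pow_lt_pow_right_of_lt_one₀ hC0 M.lt (by omega)
      _ = C := pow_one _
  have hne : mX D (h • T) ≠ mX D T := fun h' => (ne_of_lt hlt) (by rw [h'])
  have e := congrArg v (m_prod D M.hyp.two_ne hhT0 M.ne hne)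
  have hadd : h • T + T = -(h • T) := by
    have : h • T + T + h • T = 0 := by
      have e3 : h • T + T + h • T = (h + 1 + h) • T := by
        rw [add_nsmul, add_nsmul, one_nsmul]
      have e4 : h + 1 + h = p := by omega
      rw [e3, e4, M.tors]
    exact eq_neg_of_add_eq_zero_left this
  have hsub : h • T - T = (h - 1) • T := by
    have : h = (h - 1) + 1 := by omega
    conv_lhs => rw [this, succ_nsmul, add_sub_cancel_right]
  rw [hadd, mX_neg, hsub, map_mul, map_mul, map_pow, map_pow, hh0, hh1,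
    v.map_sub_eq_of_lt_right hlt] at e
  have hL : C ^ h * C ^ (h - 1) * C ^ 2 = C ^ p := by
    rw [← pow_add, ← pow_add]; congr 1; omega
  rw [hL] at e
  have hXX : v (mX D (h • T) * mX D T) = C ^ (h + 1) := by
    rw [map_mul, hh0, ← hC, pow_succ]
  have hpp : C ^ (h + 1) * C ^ (h + 1) < C ^ p := by
    rw [← pow_add]
    exact pow_lt_pow_right_of_lt_one₀ hC0 M.lt (by omega)
  rcases lt_trichotomy g (C ^ (h + 1)) with hlt' | heq | hgt
  · exfalso
    have h1 : v (mX D (h • T) * mX D T - ca4 D) = C ^ (h + 1) := by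
      rw [← hXX]; apply v.map_sub_eq_of_lt_left; rw [hXX]; exact hlt'
    rw [h1, pow_two] at e
    exact absurd e.symm (ne_of_lt hpp)
  · exfalso
    have h1 : v (mX D (h • T) * mX D T - ca4 D) ≤ C ^ (h + 1) :=
      v.map_sub_le hXX.le heq.le
    have h3 : C ^ p ≤ C ^ (h + 1) * C ^ (h + 1) := by
      rw [e, pow_two]; exact mul_le_mul' h1 h1
    exact absurd h3 (not_le.mpr hpp)
  · have h1 : v (mX D (h • T) * mX D T - ca4 D) = g := by
      apply v.map_sub_eq_of_lt_right; rw [hXX]; exact hgt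
    rw [h1] at e
    exact e

end node

section final
variable {G K Γ₀ : Type*} [AddCommGroup G] [Field K] [LinearOrderedCommGroupWithZero Γ₀]
  {D : KummerData G K} {v : Valuation K Γ₀}

/-- **no "rational" point of order `p`**: the values of `v X` on the multiples of `T` cannot all
be powers of `v 2` when `v a₄ = v 2 ^ N` with `p ∤ 2 N`. -/
theorem no_rational (H : Hyp D v) {p : ℕ} (hp : p.Prime) (hp5 : 5 ≤ p) {T : G}
    (hT : p • T = 0) (hT0 : T ≠ 0)
    (hunit : ∀ Q ∈ AddSubgroup.zmultiples T, Q ≠ 0 → v (mX D Q) = 1 → v (mX D Q - 1) < 1)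
    (hval : ∀ Q ∈ AddSubgroup.zmultiples T, Q ≠ 0 → ∃ n : ℤ, v (mX D Q) = v 2 ^ n)
    (N : ℤ) (hN : v (ca4 D) = v 2 ^ N) (hpN : ¬ (p : ℤ) ∣ 2 * N) : False := by
  have hp2 : p ≠ 2 := by omega
  -- all nonzero multiples are near the node
  have hall : ∀ Q ∈ AddSubgroup.zmultiples T, Q ≠ 0 → v (mX D Q) < 1 := by
    intro Q hQ hQ0
    have hQt := zm_tors hT hQ
    rcases lt_or_eq_of_le (tors_int H hp hp2 hQt hQ0) with h | h
    · exact h
    · exfalso
      have hQQ0 := add_self_ne_zero hp hp2 hQt hQ0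
      have hQQ : Q + Q ∈ AddSubgroup.zmultiples T := AddSubgroup.add_mem _ hQ hQ
      have h2 := dbl_unit H hQ0 (y_ne_of_tors hp hp2 hQt hQ0) h
      have h3 := hunit Q hQ hQ0 h
      have h4 := hunit (Q + Q) hQQ hQQ0 h2
      have h5 : v (mX D (Q + Q) - mX D Q) < 1 := by
        have : mX D (Q + Q) - mX D Q = (mX D (Q + Q) - 1) - (mX D Q - 1) := by ring
        rw [this]; exact v.map_sub_lt h4 h3
      exact unit_absurd H hp hp5 hQt hQ0 h h5
  -- choose the multiple with the largest abscissa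
  obtain ⟨k₀, hk₀, hmax⟩ := Finset.exists_max_image (Finset.Icc 1 (p - 1))
    (fun k => v (mX D (k • T))) ⟨1, by rw [Finset.mem_Icc]; omega⟩
  rw [Finset.mem_Icc] at hk₀
  have hT'0 : k₀ • T ≠ 0 := nsmul_ne_zero_of_lt hp hT0 hT (by omega) (by omega)
  have hT'mem : k₀ • T ∈ AddSubgroup.zmultiples T := AddSubgroup.nsmul_mem_zmultiples T k₀
  have hT't : p • (k₀ • T) = 0 := zm_tors hT hT'mem
  have hsub : AddSubgroup.zmultiples (k₀ • T) ≤ AddSubgroup.zmultiples T :=
    AddSubgroup.zmultiples_le_of_mem hT'mem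
  have M : NodeMax D v p (k₀ • T) :=
    { hyp := H
      prime := hp
      five := hp5
      tors := hT't
      ne := hT'0
      lt := hall _ hT'mem hT'0
      max := by
        intro Q hQ hQ0
        obtain ⟨k, hk1, hk2, rfl⟩ := exists_nsmul_of_mem hp.pos hT (hsub hQ) hQ0
        exact hmax k (by rw [Finset.mem_Icc]; exact ⟨hk1, hk2⟩) }
  have key := M.node_pow
  obtain ⟨n, hn⟩ := hval _ hT'mem hT'0
  have h20 : 0 < v (2 : K) := zero_lt_iff.mpr ((map_ne_zero v).mpr H.two_ne)
  rw [hn, hN, ← zpow_natCast, ← zpow_mul, ← zpow_natCast, ← zpow_mul] at key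
  have := zpow_right_injective₀ h20 H.two.ne key
  apply hpN
  refine ⟨n, ?_⟩
  push_cast at this
  linarith

end final

end Fermat.Agent.S13.TwoDirect
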